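import Mathlib
import Fermat.Prelude.Def_ModularCurve_ReductionModL
import Fermat.Agent.S28.Defs
import Fermat.Agent.S18.H516.GaussDecomp

/-!
# S18 / MOD (helper516): the Gauss valuation ring (G6), generic form

`A` a valuation subring of `L ⊇ ℚ`, `π : A →+* k` a ring hom to a field, `F_L` the function
field of level `N` over `L`.

`gaussSet A π N` := elements `f ∈ F_L` of the form `U₁ / U₂` with `U₁, U₂ ∈ A((q))`, images in
`F_L`, `π(U₂) ≠ 0`.  It is a subring (`gaussRing`); given `CoreData N k` it is a valuation ring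
of `F_L` (`gaussSet_total`), with `gaussSet ∩ L = A` when `ker π = 𝔪_A`
(`C_inv_not_mem_gaussSet`), and it has the normal form `f = c · U₁/U₂`, `c ∈ A`
(`exists_normal_form`).
-/

set_option autoImplicit false
set_option linter.unusedSectionVars false

noncomputable section

namespace Fermat.Agent.S18.H516

open ModularCurve IntermediateField Polynomial Fermat.Agent.S28

section G6

variable {L : Type*} [Field L] [Algebra ℚ L] (A : ValuationSubring L)
variable {k : Type} [Field k] (π : A →+* k) (N : ℕ) [NeZero N]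

/-- Gauss-integral series: coefficients in `A`, image in `F_L`. -/
def IsGI (U : LaurentSeries A) : Prop :=
  coeffMap A.subtype U ∈ laurentBaseChange L (modularFunctionFieldFull N)

variable {A N} in
theorem IsGI.add {U W : LaurentSeries A} (hU : IsGI A N U) (hW : IsGI A N W) :
    IsGI A N (U + W) := by
  unfold IsGI at *; rw [map_add]; exact add_mem hU hW

variable {A N} in
theorem IsGI.mul {U W : LaurentSeries A} (hU : IsGI A N U) (hW : IsGI A N W) :
    IsGI A N (U * W) := by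
  unfold IsGI at *; rw [map_mul]; exact mul_mem hU hW

variable {A N} in
theorem IsGI.neg {U : LaurentSeries A} (hU : IsGI A N U) : IsGI A N (-U) := by
  unfold IsGI at *; rw [map_neg]; exact neg_mem hU

theorem isGI_zero : IsGI A N 0 := by
  unfold IsGI; rw [map_zero]; exact zero_mem _

theorem isGI_one : IsGI A N 1 := by
  unfold IsGI; rw [map_one]; exact one_mem _

theorem isGI_C (a : A) : IsGI A N (HahnSeries.C a) := by
  unfold IsGI; rw [coeffMap_C]; exact C_mem_baseChange N _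

variable {A π N} in
theorem IsIntSeries.isGI {U : LaurentSeries A} (hU : IsIntSeries A π N U) : IsGI A N U := hU.1

/-- The Gauss valuation ring, as a set of Laurent series over `L`. -/
def gaussSet : Set (LaurentSeries L) :=
  {f | f ∈ laurentBaseChange L (modularFunctionFieldFull N) ∧
    ∃ U₁ U₂ : LaurentSeries A, IsGI A N U₁ ∧ IsGI A N U₂ ∧ coeffMap π U₂ ≠ 0 ∧
      f * coeffMap A.subtype U₂ = coeffMap A.subtype U₁}

variable {A π N}

theorem incl_mem_gaussSet {U : LaurentSeries A} (hU : IsGI A N U) :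
    coeffMap A.subtype U ∈ gaussSet A π N :=
  ⟨hU, U, 1, hU, isGI_one A N, by rw [map_one]; exact one_ne_zero, by rw [map_one, mul_one]⟩

theorem zero_mem_gaussSet : (0 : LaurentSeries L) ∈ gaussSet A π N := by
  have := incl_mem_gaussSet (π := π) (isGI_zero A N)
  rwa [map_zero] at this

theorem one_mem_gaussSet : (1 : LaurentSeries L) ∈ gaussSet A π N := by
  have := incl_mem_gaussSet (π := π) (isGI_one A N)
  rwa [map_one] at this

theorem C_mem_gaussSet (a : A) : HahnSeries.C (Γ := ℤ) (a : L) ∈ gaussSet A π N := by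
  have := incl_mem_gaussSet (π := π) (isGI_C A N a)
  rwa [coeffMap_C] at this

theorem add_mem_gaussSet {f g : LaurentSeries L} (hf : f ∈ gaussSet A π N)
    (hg : g ∈ gaussSet A π N) : f + g ∈ gaussSet A π N := by
  obtain ⟨hfF, U₁, U₂, hU₁, hU₂, hU₂k, hfU⟩ := hf
  obtain ⟨hgF, W₁, W₂, hW₁, hW₂, hW₂k, hgW⟩ := hg
  refine ⟨add_mem hfF hgF, U₁ * W₂ + W₁ * U₂, U₂ * W₂, (hU₁.mul hW₂).add (hW₁.mul hU₂),
    hU₂.mul hW₂, by rw [map_mul]; exact mul_ne_zero hU₂k hW₂k, ?_⟩
  rw [map_add, map_mul, map_mul, map_mul, ← hfU, ← hgW]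
  ring

theorem neg_mem_gaussSet {f : LaurentSeries L} (hf : f ∈ gaussSet A π N) :
    -f ∈ gaussSet A π N := by
  obtain ⟨hfF, U₁, U₂, hU₁, hU₂, hU₂k, hfU⟩ := hf
  exact ⟨neg_mem hfF, -U₁, U₂, hU₁.neg, hU₂, hU₂k, by rw [map_neg, ← hfU]; ring⟩

theorem mul_mem_gaussSet {f g : LaurentSeries L} (hf : f ∈ gaussSet A π N)
    (hg : g ∈ gaussSet A π N) : f * g ∈ gaussSet A π N := by
  obtain ⟨hfF, U₁, U₂, hU₁, hU₂, hU₂k, hfU⟩ := hf
  obtain ⟨hgF, W₁, W₂, hW₁, hW₂, hW₂k, hgW⟩ := hg
  refine ⟨mul_mem hfF hgF, U₁ * W₁, U₂ * W₂, hU₁.mul hW₁, hU₂.mul hW₂,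
    by rw [map_mul]; exact mul_ne_zero hU₂k hW₂k, ?_⟩
  rw [map_mul, map_mul, ← hfU, ← hgW]
  ring

variable (A π N) in
/-- The Gauss valuation ring as a subring of `L((q))`. -/
def gaussRing : Subring (LaurentSeries L) where
  carrier := gaussSet A π N
  mul_mem' := mul_mem_gaussSet
  one_mem' := one_mem_gaussSet
  add_mem' := add_mem_gaussSet
  zero_mem' := zero_mem_gaussSet
  neg_mem' := neg_mem_gaussSet

theorem mem_gaussRing {f : LaurentSeries L} : f ∈ gaussRing A π N ↔ f ∈ gaussSet A π N := Iff.rfl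

theorem gaussSet_subset {f : LaurentSeries L} (hf : f ∈ gaussSet A π N) :
    f ∈ laurentBaseChange L (modularFunctionFieldFull N) := hf.1

/-- Quotients of integral series with nonzero reduction are units of the Gauss ring. -/
theorem div_mem_gaussSet {U₁ U₂ : LaurentSeries A} (h₁ : IsGI A N U₁) (h₂ : IsGI A N U₂)
    (h₂k : coeffMap π U₂ ≠ 0) :
    coeffMap A.subtype U₁ * (coeffMap A.subtype U₂)⁻¹ ∈ gaussSet A π N := by
  have h0 : coeffMap A.subtype U₂ ≠ 0 := by
    intro h
    have : U₂ = 0 := incl_injective A (by rw [h, map_zero])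
    exact h₂k (by rw [this, map_zero])
  exact ⟨mul_mem h₁ (inv_mem h₂), U₁, U₂, h₁, h₂, h₂k, by
    rw [mul_assoc, inv_mul_cancel₀ h0, mul_one]⟩

/-- **Normal form.** Given the S28 core data, every nonzero `f ∈ F_L` is `c · U₁/U₂` with
integral `U₁, U₂` of nonzero reduction. -/
theorem exists_normal_form (core : CoreData N k) {f : LaurentSeries L}
    (hf : f ∈ laurentBaseChange L (modularFunctionFieldFull N)) (hf0 : f ≠ 0) :
    ∃ (c : L) (u : LaurentSeries L), c ≠ 0 ∧ f = HahnSeries.C c * u ∧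
      u ∈ gaussSet A π N ∧ u⁻¹ ∈ gaussSet A π N := by
  obtain ⟨c, U₁, U₂, hc, h₁, h₂, heq⟩ := exists_gauss_decomp A π N core hf hf0
  have h20 : coeffMap A.subtype U₂ ≠ 0 := by
    intro h
    have : U₂ = 0 := incl_injective A (by rw [h, map_zero])
    exact h₂.2.2 (by rw [this, map_zero])
  refine ⟨c, coeffMap A.subtype U₁ * (coeffMap A.subtype U₂)⁻¹, hc, ?_,
    div_mem_gaussSet h₁.1 h₂.1 h₂.2.2, ?_⟩
  · rw [← mul_assoc, ← heq, mul_assoc, mul_inv_cancel₀ h20, mul_one]
  · rw [mul_inv, inv_inv, mul_comm]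
    exact div_mem_gaussSet h₂.1 h₁.1 h₁.2.2

/-- **Valuation ring.** -/
theorem gaussSet_total (core : CoreData N k) {f : LaurentSeries L}
    (hf : f ∈ laurentBaseChange L (modularFunctionFieldFull N)) :
    f ∈ gaussSet A π N ∨ f⁻¹ ∈ gaussSet A π N := by
  by_cases hf0 : f = 0
  · left; rw [hf0]; exact zero_mem_gaussSet
  obtain ⟨c, u, hc, rfl, hu, hu'⟩ := exists_normal_form (A := A) (π := π) core hf hf0
  rcases A.mem_or_inv_mem c with hcA | hcA
  · left
    exact mul_mem_gaussSet (C_mem_gaussSet ⟨c, hcA⟩) hu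
  · right
    rw [mul_inv, ← map_inv₀]
    exact mul_mem_gaussSet (C_mem_gaussSet ⟨c⁻¹, hcA⟩) hu'

/-- Reduction of the defining relation: if `f = U₁/U₂ = W₁/W₂` then `Ū₁ W̄₂ = W̄₁ Ū₂`. -/
theorem red_cross {U₁ U₂ W₁ W₂ : LaurentSeries A} {f : LaurentSeries L}
    (hU : f * coeffMap A.subtype U₂ = coeffMap A.subtype U₁)
    (hW : f * coeffMap A.subtype W₂ = coeffMap A.subtype W₁) :
    coeffMap π U₁ * coeffMap π W₂ = coeffMap π W₁ * coeffMap π U₂ := by
  have h : U₁ * W₂ = W₁ * U₂ := by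
    apply incl_injective A
    rw [map_mul, map_mul, ← hU, ← hW]
    ring
  have := congrArg (coeffMap π) h
  rwa [map_mul, map_mul] at this

/-- A constant `a ∈ A` killed by `π` is not a unit of the Gauss ring. -/
theorem C_inv_not_mem_gaussSet {a : L} (haA : a ∈ A) (ha0 : a ≠ 0) (hπ : π ⟨a, haA⟩ = 0) :
    (HahnSeries.C (Γ := ℤ) a)⁻¹ ∉ gaussSet A π N := by
  rintro ⟨-, U₁, U₂, -, -, hU₂k, hU⟩
  have hC : HahnSeries.C (Γ := ℤ) a ≠ 0 := by
    intro h
    exact ha0 (HahnSeries.C_injective (by rw [h, map_zero]))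
  have h : U₂ = HahnSeries.C ⟨a, haA⟩ * U₁ := by
    apply incl_injective A
    rw [map_mul, coeffMap_C, ← hU]
    show _ = HahnSeries.C a * _
    rw [← mul_assoc, mul_inv_cancel₀ hC, one_mul]
  apply hU₂k
  rw [h, map_mul, coeffMap_C, hπ, map_zero, zero_mul]

/-- **`V_gen`, generic form.** If `f ∈ V` and `f⁻¹ ∉ V` then `f = c · u` with `c ∈ A` a
non-unit and `u` a unit of `V`. -/
theorem exists_nonunit_factor (core : CoreData N k) {f : LaurentSeries L}
    (hf : f ∈ gaussSet A π N) (hf' : f⁻¹ ∉ gaussSet A π N) :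
    ∃ (c : L) (u : LaurentSeries L), c ∈ A ∧ c⁻¹ ∉ A ∧ f = HahnSeries.C c * u ∧
      u ∈ gaussSet A π N ∧ u⁻¹ ∈ gaussSet A π N := by
  have hf0 : f ≠ 0 := by
    rintro rfl
    rw [inv_zero] at hf'
    exact hf' zero_mem_gaussSet
  obtain ⟨c, u, hc, rfl, hu, hu'⟩ := exists_normal_form (A := A) (π := π) core hf.1 hf0
  have hcA : c⁻¹ ∉ A := by
    intro h
    apply hf'
    rw [mul_inv, ← map_inv₀]
    exact mul_mem_gaussSet (C_mem_gaussSet ⟨c⁻¹, h⟩) hu'
  exact ⟨c, u, (A.mem_or_inv_mem c).resolve_right hcA, hcA, rfl, hu, hu'⟩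

end G6

section Coordinate

variable {L : Type*} [Field L] [Algebra ℚ L] (A : ValuationSubring L)
variable {k : Type} [Field k] (π : A →+* k) (N : ℕ) [NeZero N]

/-- Order of a series with lowest term `q⁻¹`. -/
theorem order_of_coeff_neg_one {D : Type*} [CommRing D] [Nontrivial D] {X : LaurentSeries D}
    (h1 : X.coeff (-1) = 1) (h2 : ∀ n : ℤ, n < -1 → X.coeff n = 0) : X.order = -1 := by
  have hne : X ≠ 0 := by
    rintro rfl
    simp at h1
  apply le_antisymm
  · exact HahnSeries.order_le_of_coeff_ne_zero (by rw [h1]; exact one_ne_zero)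
  · by_contra hlt
    push Not at hlt
    exact hne (HahnSeries.coeff_order_eq_zero.mp (h2 _ hlt))

variable {A π N} in
/-- **`gauss`, generic form.** `X ∈ A((q))` Gauss-integral whose reduction has nonzero order
(e.g. `X = q⁻¹ + …`), `P ∈ A[T]` with `P̄ ≠ 0`: then `P(X)` is a unit of the Gauss ring. -/
theorem inv_eval_mem_gaussSet {X : LaurentSeries A} (hX : IsGI A N X)
    (hXk : (coeffMap π X).order ≠ 0) (P : A[X]) (hP : P.map π ≠ 0) :
    (coeffMap A.subtype (P.eval₂ (HahnSeries.C (Γ := ℤ)) X))⁻¹ ∈ gaussSet A π N := by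
  have hGI : IsGI A N (P.eval₂ (HahnSeries.C (Γ := ℤ)) X) := by
    rw [Polynomial.eval₂_eq_sum_range]
    unfold IsGI
    rw [map_sum]
    refine sum_mem fun i _ => ?_
    rw [map_mul, map_pow, coeffMap_C]
    exact mul_mem (C_mem_baseChange N _) (pow_mem hX _)
  have hk : coeffMap π (P.eval₂ (HahnSeries.C (Γ := ℤ)) X) ≠ 0 := by
    intro h
    apply hP
    apply Fermat.Agent.S28.H806.eq_zero_of_eval₂_C_eq_zero (coeffMap π X) hXk
    rw [Polynomial.eval₂_map]
    rw [Polynomial.hom_eval₂] at h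
    convert h using 2
    ext a : 1
    exact (coeffMap_C π a).symm
  have := div_mem_gaussSet (π := π) (isGI_one A N) hGI hk
  rwa [map_one, one_mul] at this

end Coordinate

end Fermat.Agent.S18.H516
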