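import Mathlib
import Fermat.Prelude.Def_ModularCurve_ReductionModL
import Fermat.Agent.S28.Defs
import Fermat.Agent.S18.H516.GaussRing

/-!
# S18 / MOD (helper516): the residue homomorphism of the Gauss valuation ring

`gaussRes : gaussRing A π N →+* k((q))`, `U₁/U₂ ↦ Ū₁/Ū₂`.

* `gaussRes_eq` : value on any representation;  `gaussRes_incl`, `gaussRes_C`;
* `gaussRes_mem` : values in `F_k` (needs `CoreData N k`);
* `inv_mem_of_gaussRes_ne_zero` : `gaussRes f ≠ 0 → f⁻¹ ∈ V`;
* `exists_factor_of_gaussRes_eq_zero` : `gaussRes f = 0 → f = C c · u`, `π c = 0`, `u ∈ V`.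
-/

set_option autoImplicit false
set_option linter.unusedSectionVars false

noncomputable section

namespace Fermat.Agent.S18.H516

open ModularCurve IntermediateField Polynomial Fermat.Agent.S28

section Res

variable {L : Type*} [Field L] [Algebra ℚ L] (A : ValuationSubring L)
variable {k : Type} [Field k] (π : A →+* k) (N : ℕ) [NeZero N]

/-- Numerator of a chosen representation. -/
def gNum (f : gaussRing A π N) : LaurentSeries A := f.2.2.choose

/-- Denominator of a chosen representation. -/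
def gDen (f : gaussRing A π N) : LaurentSeries A := f.2.2.choose_spec.choose

variable {A π N}

theorem gDen_ne_zero (f : gaussRing A π N) : coeffMap π (gDen A π N f) ≠ 0 :=
  f.2.2.choose_spec.choose_spec.2.2.1

theorem gNum_gDen_spec (f : gaussRing A π N) :
    (f : LaurentSeries L) * coeffMap A.subtype (gDen A π N f) =
      coeffMap A.subtype (gNum A π N f) :=
  f.2.2.choose_spec.choose_spec.2.2.2

variable (A π N) in
/-- The residue map as a function. -/
def gaussResFun (f : gaussRing A π N) : LaurentSeries k :=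
  coeffMap π (gNum A π N f) * (coeffMap π (gDen A π N f))⁻¹

theorem gaussResFun_eq (f : gaussRing A π N) {U₁ U₂ : LaurentSeries A}
    (hk : coeffMap π U₂ ≠ 0)
    (heq : (f : LaurentSeries L) * coeffMap A.subtype U₂ = coeffMap A.subtype U₁) :
    gaussResFun A π N f = coeffMap π U₁ * (coeffMap π U₂)⁻¹ := by
  have h := red_cross (π := π) (gNum_gDen_spec f) heq
  unfold gaussResFun
  have h' := (div_eq_div_iff (gDen_ne_zero f) hk).mpr h
  rwa [div_eq_mul_inv, div_eq_mul_inv] at h'

variable (A π N) in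
/-- **The residue homomorphism** of the Gauss valuation ring. -/
def gaussRes : gaussRing A π N →+* LaurentSeries k where
  toFun := gaussResFun A π N
  map_one' := by
    rw [gaussResFun_eq (1 : gaussRing A π N) (U₁ := 1) (U₂ := 1)
      (by rw [map_one]; exact one_ne_zero) (by simp)]
    simp
  map_zero' := by
    rw [gaussResFun_eq (0 : gaussRing A π N) (U₁ := 0) (U₂ := 1)
      (by rw [map_one]; exact one_ne_zero) (by simp)]
    simp
  map_mul' f g := by
    have hf := gNum_gDen_spec f
    have hg := gNum_gDen_spec g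
    rw [gaussResFun_eq (f * g) (U₁ := gNum A π N f * gNum A π N g)
      (U₂ := gDen A π N f * gDen A π N g)
      (by rw [map_mul]; exact mul_ne_zero (gDen_ne_zero f) (gDen_ne_zero g))
      (by
        show (f : LaurentSeries L) * (g : LaurentSeries L) * _ = _
        rw [map_mul, map_mul, ← hf, ← hg]; ring)]
    unfold gaussResFun
    rw [map_mul, map_mul, mul_inv]
    ring
  map_add' f g := by
    have hf := gNum_gDen_spec f
    have hg := gNum_gDen_spec g
    rw [gaussResFun_eq (f + g)
      (U₁ := gNum A π N f * gDen A π N g + gNum A π N g * gDen A π N f)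
      (U₂ := gDen A π N f * gDen A π N g)
      (by rw [map_mul]; exact mul_ne_zero (gDen_ne_zero f) (gDen_ne_zero g))
      (by
        show ((f : LaurentSeries L) + (g : LaurentSeries L)) * _ = _
        rw [map_add, map_mul, map_mul, map_mul, ← hf, ← hg]; ring)]
    unfold gaussResFun
    rw [map_add, map_mul, map_mul, map_mul]
    have h1 := gDen_ne_zero f
    have h2 := gDen_ne_zero g
    field_simp

theorem gaussRes_eq (f : gaussRing A π N) {U₁ U₂ : LaurentSeries A}
    (hk : coeffMap π U₂ ≠ 0)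
    (heq : (f : LaurentSeries L) * coeffMap A.subtype U₂ = coeffMap A.subtype U₁) :
    gaussRes A π N f = coeffMap π U₁ * (coeffMap π U₂)⁻¹ :=
  gaussResFun_eq f hk heq

/-- On Gauss-integral series the residue map is the coefficientwise reduction. -/
theorem gaussRes_incl {U : LaurentSeries A} (hU : IsGI A N U) :
    gaussRes A π N ⟨coeffMap A.subtype U, incl_mem_gaussSet hU⟩ = coeffMap π U := by
  rw [gaussRes_eq _ (U₁ := U) (U₂ := 1) (by rw [map_one]; exact one_ne_zero)
    (by simp)]
  simp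

theorem gaussRes_C (a : A) :
    gaussRes A π N ⟨HahnSeries.C (Γ := ℤ) (a : L), C_mem_gaussSet a⟩ = HahnSeries.C (π a) := by
  rw [gaussRes_eq _ (U₁ := HahnSeries.C a) (U₂ := 1) (by rw [map_one]; exact one_ne_zero)
    (by rw [map_one, mul_one, coeffMap_C]; rfl)]
  rw [map_one, inv_one, mul_one, coeffMap_C]

/-- The residue map takes values in `F_k`. -/
theorem gaussRes_mem (core : CoreData N k) (f : gaussRing A π N) :
    gaussRes A π N f ∈ modularFunctionFieldFullC k N := by
  obtain ⟨-, U₁, U₂, h₁, h₂, hk, heq⟩ := f.2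
  rw [gaussRes_eq f hk heq]
  exact mul_mem (red_mem_of_incl_mem A π N core h₁) (inv_mem (red_mem_of_incl_mem A π N core h₂))

/-- Elements with nonzero residue are units. -/
theorem inv_mem_of_gaussRes_ne_zero (f : gaussRing A π N) (hf : gaussRes A π N f ≠ 0) :
    (f : LaurentSeries L)⁻¹ ∈ gaussSet A π N := by
  obtain ⟨-, U₁, U₂, h₁, h₂, hk, heq⟩ := f.2
  rw [gaussRes_eq f hk heq] at hf
  have h1k : coeffMap π U₁ ≠ 0 := fun h => hf (by rw [h, zero_mul])
  have h20 : coeffMap A.subtype U₂ ≠ 0 := by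
    intro h
    have : U₂ = 0 := incl_injective A (by rw [h, map_zero])
    exact hk (by rw [this, map_zero])
  have hfe : (f : LaurentSeries L) = coeffMap A.subtype U₁ * (coeffMap A.subtype U₂)⁻¹ := by
    rw [← heq, mul_assoc, mul_inv_cancel₀ h20, mul_one]
  rw [hfe, mul_inv, inv_inv, mul_comm]
  exact div_mem_gaussSet h₂ h₁ h1k

/-- **Kernel.** An element of zero residue is `C c · u` with `π c = 0`. -/
theorem exists_factor_of_gaussRes_eq_zero (core : CoreData N k) (f : gaussRing A π N)
    (hf : gaussRes A π N f = 0) (hf0 : (f : LaurentSeries L) ≠ 0) :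
    ∃ (c : A) (u : LaurentSeries L), π c = 0 ∧ (f : LaurentSeries L) = HahnSeries.C (c : L) * u ∧
      u ∈ gaussSet A π N ∧ u⁻¹ ∈ gaussSet A π N := by
  obtain ⟨c, U₁, U₂, hc, h₁, h₂, heq⟩ := exists_gauss_decomp A π N core f.2.1 hf0
  have h20 : coeffMap A.subtype U₂ ≠ 0 := by
    intro h
    have : U₂ = 0 := incl_injective A (by rw [h, map_zero])
    exact h₂.2.2 (by rw [this, map_zero])
  have hu : coeffMap A.subtype U₁ * (coeffMap A.subtype U₂)⁻¹ ∈ gaussSet A π N :=
    div_mem_gaussSet h₁.1 h₂.1 h₂.2.2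
  have hu' : (coeffMap A.subtype U₁ * (coeffMap A.subtype U₂)⁻¹)⁻¹ ∈ gaussSet A π N := by
    rw [mul_inv, inv_inv, mul_comm]
    exact div_mem_gaussSet h₂.1 h₁.1 h₁.2.2
  have hfe : (f : LaurentSeries L) =
      HahnSeries.C c * (coeffMap A.subtype U₁ * (coeffMap A.subtype U₂)⁻¹) := by
    rw [← mul_assoc, ← heq, mul_assoc, mul_inv_cancel₀ h20, mul_one]
  have hcA : c ∈ A := by
    by_contra hcA
    have hcinv : c⁻¹ ∈ A := (A.mem_or_inv_mem c).resolve_left hcA
    -- then `f⁻¹ = C c⁻¹ · u⁻¹ ∈ V`, so `f` is a unit with zero residue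
    have hfinv : (f : LaurentSeries L)⁻¹ ∈ gaussSet A π N := by
      rw [hfe, mul_inv, ← map_inv₀]
      exact mul_mem_gaussSet (C_mem_gaussSet ⟨c⁻¹, hcinv⟩) hu'
    have h1 : gaussRes A π N f * gaussRes A π N ⟨_, hfinv⟩ = 1 := by
      rw [← map_mul]
      have : f * ⟨_, hfinv⟩ = 1 := Subtype.ext (mul_inv_cancel₀ hf0)
      rw [this, map_one]
    rw [hf, zero_mul] at h1
    exact zero_ne_one h1
  refine ⟨⟨c, hcA⟩, _, ?_, hfe, hu, hu'⟩
  -- residue of `f` is `π c · ū`, `ū ≠ 0`
  set fc : gaussRing A π N :=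
    ⟨HahnSeries.C (Γ := ℤ) (((⟨c, hcA⟩ : A) : L)), C_mem_gaussSet (⟨c, hcA⟩ : A)⟩ with hfc
  have hfe' : f = fc * ⟨_, hu⟩ := Subtype.ext hfe
  have hC : gaussRes A π N fc = HahnSeries.C (π ⟨c, hcA⟩) := gaussRes_C (⟨c, hcA⟩ : A)
  rw [hfe', map_mul, hC] at hf
  have hune : gaussRes A π N ⟨_, hu⟩ ≠ 0 := by
    rw [gaussRes_eq ⟨_, hu⟩ (U₁ := U₁) (U₂ := U₂) h₂.2.2
      (by
        show coeffMap A.subtype U₁ * (coeffMap A.subtype U₂)⁻¹ * coeffMap A.subtype U₂ = _
        rw [mul_assoc, inv_mul_cancel₀ h20, mul_one])]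
    exact mul_ne_zero h₁.2.2 (inv_ne_zero h₂.2.2)
  have := (mul_eq_zero.mp hf).resolve_right hune
  exact HahnSeries.C_injective (by rw [this, map_zero])

end Res

end Fermat.Agent.S18.H516
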