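import Mathlib
import Fermat.Prelude.Def_ModularCurve_ReductionModL
import Fermat.Agent.S28.Defs
import Fermat.Agent.S18.H516.GaussDecomp

/-!
# S18 / MOD (helper516): base-change bookkeeping

* `baseChange_eq_fullC` : `laurentBaseChange L (modularFunctionFieldFull N) = modularFunctionFieldFullC L N`.
* `algebraMap_eq_C`, `aeval_jq_eq_evJ`, `integral_map` (integrality equations along coefficient maps),
  `integral_of_mem_closure`, `transcendental_jqModC`.
-/

set_option autoImplicit false
set_option linter.unusedSectionVars false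

noncomputable section

namespace Fermat.Agent.S18.H516

open ModularCurve IntermediateField Polynomial Fermat.Agent.S28

section BaseChange

variable (L : Type*) [Field L] [Algebra ℚ L] (N : ℕ) [NeZero N]

theorem coeffEmb_qExpand_jq (d : ℕ) [NeZero d] :
    coeffEmb L (qExpand ℚ d jq) = qExpand L d (jqModC L) := by
  rw [coeffEmb, coeffMap_qExpand, ← jqModC_rat, coeffMap_jqModC]

theorem coeffEmb_algebraMap' (r : ℚ) :
    coeffEmb L (algebraMap ℚ (LaurentSeries ℚ) r) =
      algebraMap L (LaurentSeries L) (algebraMap ℚ L r) := by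
  rw [algebraMap_laurentSeries_eq_single, algebraMap_laurentSeries_eq_single, coeffEmb,
    coeffMap_single]

theorem coeffEmb_mem_fullC {x : LaurentSeries ℚ} (hx : x ∈ modularFunctionFieldFull N) :
    coeffEmb L x ∈ modularFunctionFieldFullC L N := by
  unfold modularFunctionFieldFull at hx
  induction hx using IntermediateField.adjoin_induction with
  | mem x hx =>
    obtain ⟨d, hd, hdN, rfl⟩ := hx
    rw [coeffEmb_qExpand_jq]
    exact jqModCd_mem_full L N hdN
  | algebraMap r =>
    rw [coeffEmb_algebraMap']
    exact (modularFunctionFieldFullC L N).algebraMap_mem _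
  | add x y _ _ hx hy => rw [map_add]; exact add_mem hx hy
  | inv x _ hx => rw [map_inv₀]; exact inv_mem hx
  | mul x y _ _ hx hy => rw [map_mul]; exact mul_mem hx hy

/-- The two descriptions of the function field over `L` agree. -/
theorem baseChange_eq_fullC :
    laurentBaseChange L (modularFunctionFieldFull N) = modularFunctionFieldFullC L N := by
  apply le_antisymm
  · rw [laurentBaseChange, adjoin_le_iff]
    rintro z ⟨w, hw, rfl⟩
    exact coeffEmb_mem_fullC L N hw
  · rw [modularFunctionFieldFullC, adjoin_le_iff]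
    rintro z ⟨d, hd, hdN, rfl⟩
    rw [← coeffEmb_qExpand_jq]
    exact coeffEmb_mem_laurentBaseChange L (jqd_mem_full N hdN)

end BaseChange

section Aeval

variable {R : Type*} [CommRing R]

theorem algebraMap_eq_C (a : R) :
    algebraMap R (LaurentSeries R) a = HahnSeries.C (Γ := ℤ) a := by
  have h1 : algebraMap R (PowerSeries R) a = PowerSeries.C a := by simp
  rw [HahnSeries.algebraMap_apply', h1, HahnSeries.ofPowerSeries_C]

theorem aeval_jq_eq_evJ (s : R[X]) : Polynomial.aeval (jqModC R) s = evJ s := by
  rw [Polynomial.aeval_def, evJ]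
  congr 1
  ext a : 1
  exact algebraMap_eq_C a

theorem aeval_toRingHom_comp_map {S : Type*} [CommRing S] (f : R →+* S) (x : LaurentSeries R) :
    ((Polynomial.aeval (coeffMap f x)).toRingHom).comp (Polynomial.mapRingHom f) =
      (coeffMap f).comp (Polynomial.aeval x).toRingHom := by
  apply Polynomial.ringHom_ext
  · intro a
    simp only [RingHom.comp_apply, Polynomial.coe_mapRingHom, Polynomial.map_C,
      AlgHom.toRingHom_eq_coe, RingHom.coe_coe, Polynomial.aeval_C]
    rw [algebraMap_eq_C, algebraMap_eq_C, coeffMap_C]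
  · simp only [RingHom.comp_apply, Polynomial.coe_mapRingHom, Polynomial.map_X,
      AlgHom.toRingHom_eq_coe, RingHom.coe_coe, Polynomial.aeval_X]

/-- Base change of an integrality equation along a coefficient map. -/
theorem integral_map {S : Type*} [CommRing S] (f : R →+* S) {x y : LaurentSeries R}
    (h : ∃ P : R[X][X], P.Monic ∧ P.eval₂ (Polynomial.aeval x).toRingHom y = 0) :
    ∃ P : S[X][X], P.Monic ∧
      P.eval₂ (Polynomial.aeval (coeffMap f x)).toRingHom (coeffMap f y) = 0 := by
  obtain ⟨P, hP, hPy⟩ := h
  refine ⟨P.map (Polynomial.mapRingHom f), hP.map _, ?_⟩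
  rw [Polynomial.eval₂_map, aeval_toRingHom_comp_map, ← Polynomial.hom_eval₂, hPy, map_zero]

end Aeval

section IntZ

/-- Elements of `ℤ[j(q^d) : d ∣ N]` are integral over `ℤ[j]` as soon as the generators are. -/
theorem integral_of_mem_closure (N : ℕ)
    (hint : ∀ (d : ℕ) [NeZero d], d ∣ N →
      ∃ P : Polynomial (Polynomial ℤ), P.Monic ∧
        P.eval₂ (evalAt (jqModC ℤ)) (qExpand ℤ d (jqModC ℤ)) = 0)
    {y : LaurentSeries ℤ} (hy : y ∈ Subring.closure (intDivisorExpansions N)) :
    (evalAt (jqModC ℤ)).IsIntegralElem y := by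
  induction hy using Subring.closure_induction with
  | mem x hx =>
    obtain ⟨d, hd, hdN, rfl⟩ := hx
    exact hint d hdN
  | zero => exact (evalAt (jqModC ℤ)).isIntegralElem_zero
  | one => exact (evalAt (jqModC ℤ)).isIntegralElem_one
  | add x y _ _ hx hy => exact RingHom.IsIntegralElem.add _ hx hy
  | neg x _ hx => exact RingHom.IsIntegralElem.neg _ hx
  | mul x y _ _ hx hy => exact RingHom.IsIntegralElem.mul _ hx hy

end IntZ

theorem transcendental_jqModC (K : Type*) [Field K] : Transcendental K (jqModC K) := by
  rw [transcendental_iff]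
  intro p hp
  rw [aeval_eq_evJ] at hp
  exact (evJ_eq_zero_iff K).mp hp

end Fermat.Agent.S18.H516
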